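/-
Programme T1B (row 38 via S44/S40), brick ENDGAME-ABS (helper74).  THE ABSTRACT ENDGAME of the local
argument at `p` (report 917 `ENDGAME with delta`, masterplan 761), in the vocabulary of
`T1/KL46/Abstract.lean` (`LocalData I A p`: `J1 ≤ J0`, `K = ker β`, `chi`, `toric`).  Pure group
theory, Mathlib + `KL46/Abstract` only.

Setting: `I` = inertia at `p` acting on `A = J(K̄)`, `D : LocalData I A p`, `V ⊆ A[p]` an `I`-module
with `V ≤ J0` (Phi-step), `V ≤ K`; `δ : A → T` (the `q`-dlog of report 917, or any map) with the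
kernel property (K): `x ∈ J0`, `p x = 0`, `δ x = 0` imply `x ∈ J1`.

* `exists_ne_zero_of_not_scalar` (core): if `I` does NOT act on all of `V` through `χ`, then
  `δ v ≠ 0` for some `v ∈ V`.  [If `δ|V = 0` then `V ≤ J1 ∩ K ∩ A[p]` and `toric` applies.]
* `not_scalar_of_triangular` : `V ∋ y` with `s y = y + c(s) x₀`, `y ∉ 𝔽_p x₀`, `χ ≠ 1`  ⇒  not scalar.
  (the shape delivered by the multiplicative `E`-side: `x₀ = φ P₀`, `y = φ Q`, KL46 vocabulary).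
* `not_scalar_of_det` : `x, y ∈ V` independent mod `p`, `s x = a x + b y`, `s y = c x + d y`,
  `ad - bc ≡ χ(s)`, `χ ≠ 1`, `p` prime  ⇒  not scalar  (`det = χ` on a 2-dimensional `V`).
* `not_scalar_of_linearMap_det` : the same with `LinearMap.det` for a `ZMod p`-linear model `W → A`.
* `endgame_triangular`, `endgame_det` : the assembled statements `∃ v ∈ V, δ v ≠ 0`.
* `exists_eigen_of_ne_zero`, `endgame_triangular_eigen`, `endgame_det_eigen` : with commuting operators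
  `TA i` on `A`, `TT i` on `T`, `δ (TA i v) = TT i (δ v)` and `TA i v = a i • v` on `V`
  (`δ (n • v) = n • δ v`): a NONZERO `g = δ v` with `TT i g = a i • g` for all `i`
  (the mod `p` eigenform of level `M'`).
* two-sided versions (`δ₁`, `δ₂` for the two components): `endgame_two_sided`.
-/
import Mathlib
import Fermat.Agent.T1.KL46.Abstract

set_option autoImplicit false
set_option linter.unusedSectionVars false
set_option linter.unusedVariables false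

namespace Fermat.Agent.T1B.Endgame74.Abstract

open Fermat.Agent.T1.KL46.Abstract

variable {I A : Type*} [Group I] [AddCommGroup A] [DistribMulAction I A] {p : ℕ}

/-! ### The core -/

/-- **Core of the endgame.** `V ≤ J0 ∩ K` killed by `p`; `δ` has the kernel property (K) on `J0[p]`.
If `I` does not act on the whole of `V` through `χ`, then `δ` does not vanish on `V`. -/
theorem exists_ne_zero_of_not_scalar (D : LocalData I A p) (V : AddSubgroup A)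
    (hVJ0 : V ≤ D.J0) (hVK : V ≤ D.K) (hVp : ∀ x ∈ V, p • x = 0)
    {T : Type*} [Zero T] (δ : A → T)
    (hK : ∀ x ∈ D.J0, p • x = 0 → δ x = 0 → x ∈ D.J1)
    (hns : ¬ ∀ s : I, ∀ x ∈ V, s • x = D.chi s • x) :
    ∃ x ∈ V, δ x ≠ 0 := by
  by_contra h
  push Not at h
  exact hns fun s x hx =>
    D.toric x (hK x (hVJ0 hx) (hVp x hx) (h x hx)) (hVK hx) (hVp x hx) s

/-- Contrapositive form: if `δ` vanishes on `V` then `I` acts on `V` through `χ` (and `V ≤ J1`). -/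
theorem scalar_of_delta_eq_zero (D : LocalData I A p) (V : AddSubgroup A)
    (hVJ0 : V ≤ D.J0) (hVK : V ≤ D.K) (hVp : ∀ x ∈ V, p • x = 0)
    {T : Type*} [Zero T] (δ : A → T)
    (hK : ∀ x ∈ D.J0, p • x = 0 → δ x = 0 → x ∈ D.J1)
    (h0 : ∀ x ∈ V, δ x = 0) :
    V ≤ D.J1 ∧ ∀ s : I, ∀ x ∈ V, s • x = D.chi s • x :=
  ⟨fun x hx => hK x (hVJ0 hx) (hVp x hx) (h0 x hx), fun s x hx =>
    D.toric x (hK x (hVJ0 hx) (hVp x hx) (h0 x hx)) (hVK hx) (hVp x hx) s⟩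

/-! ### `I` does not act through `χ`: the triangular form -/

/-- **Triangular form** (multiplicative `E`-side): `y ∈ V` with `s y = y + c(s) x₀`, `y` independent of
`x₀` modulo `p`, and `χ(s₀) ≢ 1`: then `I` does not act on `V` through the scalars `chi`. -/
theorem not_scalar_of_triangular (chi : I → ℕ) (V : AddSubgroup A) {x₀ y : A} (hy : y ∈ V)
    (c : I → ℕ) (hact : ∀ s : I, s • y = y + c s • x₀)
    (hind : ∀ a b : ℤ, a • y = b • x₀ → (p : ℤ) ∣ a)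
    (s₀ : I) (hchi : ¬ chi s₀ ≡ 1 [MOD p]) :
    ¬ ∀ s : I, ∀ x ∈ V, s • x = chi s • x := by
  intro h
  have h1 := h s₀ y hy
  rw [hact s₀] at h1
  have h2 : ((chi s₀ : ℤ) - 1) • y = (c s₀ : ℤ) • x₀ := by
    rw [sub_smul, one_smul, natCast_zsmul, natCast_zsmul, ← h1]
    abel
  have h3 := hind _ _ h2
  apply hchi
  have h4 : ((chi s₀ : ℕ) : ℤ) ≡ ((1 : ℕ) : ℤ) [ZMOD (p : ℤ)] := by
    rw [Nat.cast_one]
    exact (Int.modEq_iff_dvd.2 (by
      have : (p : ℤ) ∣ -((chi s₀ : ℤ) - 1) := (dvd_neg).2 h3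
      rwa [neg_sub] at this))
  exact (Int.natCast_modEq_iff).1 h4

/-! ### `I` does not act through `χ`: the determinant form -/

/-- **Determinant form**: `x, y ∈ V` independent modulo `p`, the action of `s` on them is given by
the integer matrix `(a b; c d)(s)` with `ad - bc ≡ χ(s)` (`det = χ`), and `χ(s₀) ≢ 1`: then `I` does
not act on `V` through the scalars `chi`. -/
theorem not_scalar_of_det (hp : p.Prime) (chi : I → ℕ) (V : AddSubgroup A)
    (hVp : ∀ x ∈ V, p • x = 0) {x y : A} (hx : x ∈ V) (hy : y ∈ V)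
    (hind : ∀ a b : ℤ, a • x + b • y = 0 → (p : ℤ) ∣ a ∧ (p : ℤ) ∣ b)
    (a b c d : I → ℤ)
    (hsx : ∀ s : I, s • x = a s • x + b s • y) (hsy : ∀ s : I, s • y = c s • x + d s • y)
    (hdet : ∀ s : I, a s * d s - b s * c s ≡ (chi s : ℤ) [ZMOD (p : ℤ)])
    (s₀ : I) (hchi : ¬ chi s₀ ≡ 1 [MOD p]) :
    ¬ ∀ s : I, ∀ v ∈ V, s • v = chi s • v := by
  intro h
  have hpZ : Prime (p : ℤ) := Nat.prime_iff_prime_int.1 hp
  -- `a ≡ d ≡ χ`, `b ≡ c ≡ 0`
  have h1 : (a s₀ - (chi s₀ : ℤ)) • x + b s₀ • y = 0 := by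
    have := h s₀ x hx
    rw [hsx s₀] at this
    rw [sub_smul, natCast_zsmul, ← this]
    abel
  have h2 : c s₀ • x + (d s₀ - (chi s₀ : ℤ)) • y = 0 := by
    have := h s₀ y hy
    rw [hsy s₀] at this
    rw [sub_smul, natCast_zsmul, ← this]
    abel
  obtain ⟨ha, hb⟩ := hind _ _ h1
  obtain ⟨hc, hd⟩ := hind _ _ h2
  -- hence `χ² ≡ χ`
  have h3 : (p : ℤ) ∣ (chi s₀ : ℤ) * ((chi s₀ : ℤ) - 1) := by
    have h4 : (p : ℤ) ∣ a s₀ * d s₀ - b s₀ * c s₀ - (chi s₀ : ℤ) :=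
      (Int.modEq_iff_dvd.1 (hdet s₀).symm)
    obtain ⟨a', ha'⟩ := ha
    obtain ⟨b', hb'⟩ := hb
    obtain ⟨c', hc'⟩ := hc
    obtain ⟨d', hd'⟩ := hd
    obtain ⟨e', he'⟩ := h4
    have hA : a s₀ = (chi s₀ : ℤ) + p * a' := by linarith
    have hD : d s₀ = (chi s₀ : ℤ) + p * d' := by linarith
    refine ⟨e' - a' * (chi s₀ : ℤ) - d' * (chi s₀ : ℤ) - p * a' * d' + p * b' * c', ?_⟩
    rw [hA, hD, hb', hc'] at he'
    linear_combination he'
  -- `p ∤ χ(s₀)` because `s₀` acts injectively and `x ≠ 0`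
  have hx0 : x ≠ 0 := by
    intro hx0
    have := (hind 1 0 (by rw [hx0, smul_zero, zero_smul, add_zero])).1
    exact hpZ.not_dvd_one this
  have h5 : ¬ (p : ℤ) ∣ (chi s₀ : ℤ) := by
    intro hdvd
    obtain ⟨k, hk⟩ := (Int.natCast_dvd_natCast.1 hdvd)
    have h6 : s₀ • x = 0 := by
      rw [h s₀ x hx, hk, mul_comm, mul_smul, hVp x hx, smul_zero]
    apply hx0
    have := congrArg (fun z => s₀⁻¹ • z) h6
    simpa using this
  rcases hpZ.dvd_or_dvd h3 with h6 | h6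
  · exact h5 h6
  · apply hchi
    have h4 : ((chi s₀ : ℕ) : ℤ) ≡ ((1 : ℕ) : ℤ) [ZMOD (p : ℤ)] := by
      rw [Nat.cast_one]
      exact (Int.modEq_iff_dvd.2 (by
        have : (p : ℤ) ∣ -((chi s₀ : ℤ) - 1) := (dvd_neg).2 h6
        rwa [neg_sub] at this))
    exact (Int.natCast_modEq_iff).1 h4

/-- **`LinearMap.det` form.** `W` a 2-dimensional `ZMod p`-space with a linear action `ρ` of `I`,
`j : W → A` additive, `I`-equivariant with image in `V` and injective; `det ρ(s) = χ(s)`, `χ(s₀) ≠ 1`: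
then `I` does not act on `V` through the scalars `chi`. -/
theorem not_scalar_of_linearMap_det [Fact p.Prime] (chi : I → ℕ) (V : AddSubgroup A)
    {W : Type*} [AddCommGroup W] [Module (ZMod p) W] (hdim : Module.finrank (ZMod p) W = 2)
    (ρ : I →* (W →ₗ[ZMod p] W)) (j : W →+ A) (hj : Function.Injective j) (hjV : ∀ w, j w ∈ V)
    (hjρ : ∀ (s : I) (w : W), j (ρ s w) = s • j w)
    (hdet : ∀ s : I, LinearMap.det (ρ s) = (chi s : ZMod p))
    (s₀ : I) (hchi : (chi s₀ : ZMod p) ≠ 1) :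
    ¬ ∀ s : I, ∀ v ∈ V, s • v = chi s • v := by
  intro h
  have h1 : ρ s₀ = (chi s₀ : ZMod p) • (LinearMap.id : W →ₗ[ZMod p] W) := by
    apply LinearMap.ext
    intro w
    apply hj
    rw [hjρ, h s₀ (j w) (hjV w), LinearMap.smul_apply, LinearMap.id_apply,
      ← map_nsmul, Nat.cast_smul_eq_nsmul]
  have h2 := hdet s₀
  rw [h1, LinearMap.det_smul, LinearMap.det_id, mul_one, hdim] at h2
  -- `χ² = χ` in `ZMod p`, and `χ ≠ 0` since `ρ s₀` is invertible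
  have h3 : (chi s₀ : ZMod p) ≠ 0 := by
    intro h0
    have h4 : ρ s₀ = 0 := by rw [h1, h0, zero_smul]
    have h5 : (1 : W →ₗ[ZMod p] W) = 0 := by
      have := congrArg (fun f => ρ s₀⁻¹ * f) h4
      simp only [← map_mul, inv_mul_cancel, map_one, mul_zero] at this
      exact this
    have h6 : Module.finrank (ZMod p) W = 0 := by
      have : Subsingleton W := ⟨fun u v => by
        have hu : u = (1 : W →ₗ[ZMod p] W) u := rfl
        have hv : v = (1 : W →ₗ[ZMod p] W) v := rfl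
        rw [hu, hv, h5, LinearMap.zero_apply, LinearMap.zero_apply]⟩
      exact Module.finrank_zero_of_subsingleton
    omega
  apply hchi
  have h4 : (chi s₀ : ZMod p) * ((chi s₀ : ZMod p) - 1) = 0 := by
    rw [mul_sub, mul_one, ← sq, h2, sub_self]
  rcases mul_eq_zero.1 h4 with h5 | h5
  · exact absurd h5 h3
  · exact sub_eq_zero.1 h5

/-! ### The assembled endgame -/

/-- **ENDGAME, triangular form.** `V ≤ J0 ∩ K` killed by `p`, `y ∈ V` with `s y = y + c(s) x₀`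
independent of `x₀` modulo `p`, `χ(s₀) ≢ 1`, `δ` with the kernel property (K): then `δ(V) ≠ 0`. -/
theorem endgame_triangular (D : LocalData I A p) (V : AddSubgroup A)
    (hVJ0 : V ≤ D.J0) (hVK : V ≤ D.K) (hVp : ∀ x ∈ V, p • x = 0)
    {T : Type*} [Zero T] (δ : A → T)
    (hK : ∀ x ∈ D.J0, p • x = 0 → δ x = 0 → x ∈ D.J1)
    {x₀ y : A} (hy : y ∈ V) (c : I → ℕ) (hact : ∀ s : I, s • y = y + c s • x₀)
    (hind : ∀ a b : ℤ, a • y = b • x₀ → (p : ℤ) ∣ a)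
    (s₀ : I) (hchi : ¬ D.chi s₀ ≡ 1 [MOD p]) :
    ∃ x ∈ V, δ x ≠ 0 :=
  exists_ne_zero_of_not_scalar D V hVJ0 hVK hVp δ hK
    (not_scalar_of_triangular D.chi V hy c hact hind s₀ hchi)

/-- **ENDGAME, determinant form.** `V ≤ J0 ∩ K` killed by `p`, spanned modulo `p`-independence by
`x, y` on which `I` acts with `det = χ`, `χ(s₀) ≢ 1`, `δ` with the kernel property (K): then
`δ(V) ≠ 0`. -/
theorem endgame_det (hp : p.Prime) (D : LocalData I A p) (V : AddSubgroup A)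
    (hVJ0 : V ≤ D.J0) (hVK : V ≤ D.K) (hVp : ∀ x ∈ V, p • x = 0)
    {T : Type*} [Zero T] (δ : A → T)
    (hK : ∀ x ∈ D.J0, p • x = 0 → δ x = 0 → x ∈ D.J1)
    {x y : A} (hx : x ∈ V) (hy : y ∈ V)
    (hind : ∀ a b : ℤ, a • x + b • y = 0 → (p : ℤ) ∣ a ∧ (p : ℤ) ∣ b)
    (a b c d : I → ℤ)
    (hsx : ∀ s : I, s • x = a s • x + b s • y) (hsy : ∀ s : I, s • y = c s • x + d s • y)
    (hdet : ∀ s : I, a s * d s - b s * c s ≡ (D.chi s : ℤ) [ZMOD (p : ℤ)])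
    (s₀ : I) (hchi : ¬ D.chi s₀ ≡ 1 [MOD p]) :
    ∃ v ∈ V, δ v ≠ 0 :=
  exists_ne_zero_of_not_scalar D V hVJ0 hVK hVp δ hK
    (not_scalar_of_det hp D.chi V hVp hx hy hind a b c d hsx hsy hdet s₀ hchi)

/-- **ENDGAME, `LinearMap.det` form.** -/
theorem endgame_linearMap_det [Fact p.Prime] (D : LocalData I A p) (V : AddSubgroup A)
    (hVJ0 : V ≤ D.J0) (hVK : V ≤ D.K) (hVp : ∀ x ∈ V, p • x = 0)
    {T : Type*} [Zero T] (δ : A → T)
    (hK : ∀ x ∈ D.J0, p • x = 0 → δ x = 0 → x ∈ D.J1)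
    {W : Type*} [AddCommGroup W] [Module (ZMod p) W] (hdim : Module.finrank (ZMod p) W = 2)
    (ρ : I →* (W →ₗ[ZMod p] W)) (j : W →+ A) (hj : Function.Injective j) (hjV : ∀ w, j w ∈ V)
    (hjρ : ∀ (s : I) (w : W), j (ρ s w) = s • j w)
    (hdet : ∀ s : I, LinearMap.det (ρ s) = (D.chi s : ZMod p))
    (s₀ : I) (hchi : (D.chi s₀ : ZMod p) ≠ 1) :
    ∃ v ∈ V, δ v ≠ 0 :=
  exists_ne_zero_of_not_scalar D V hVJ0 hVK hVp δ hK
    (not_scalar_of_linearMap_det D.chi V hdim ρ j hj hjV hjρ hdet s₀ hchi)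

/-- **Two-sided form** (`δ₁`, `δ₂` = the `q`-dlogs on the two components; (K): both vanish ⇒ `J1`). -/
theorem endgame_two_sided (D : LocalData I A p) (V : AddSubgroup A)
    (hVJ0 : V ≤ D.J0) (hVK : V ≤ D.K) (hVp : ∀ x ∈ V, p • x = 0)
    {T₁ T₂ : Type*} [Zero T₁] [Zero T₂] (δ₁ : A → T₁) (δ₂ : A → T₂)
    (hK : ∀ x ∈ D.J0, p • x = 0 → δ₁ x = 0 → δ₂ x = 0 → x ∈ D.J1)
    (hns : ¬ ∀ s : I, ∀ x ∈ V, s • x = D.chi s • x) :
    (∃ x ∈ V, δ₁ x ≠ 0) ∨ (∃ x ∈ V, δ₂ x ≠ 0) := by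
  obtain ⟨x, hxV, hx⟩ := exists_ne_zero_of_not_scalar D V hVJ0 hVK hVp
    (fun x => ((δ₁ x, δ₂ x) : T₁ × T₂))
    (fun x hx0 hxp h => hK x hx0 hxp (Prod.ext_iff.1 h).1 (Prod.ext_iff.1 h).2) hns
  by_cases h1 : δ₁ x = 0
  · refine Or.inr ⟨x, hxV, fun h2 => hx ?_⟩
    exact Prod.ext h1 h2
  · exact Or.inl ⟨x, hxV, h1⟩

/-! ### The eigen-conclusion -/

/-- **From `δ(V) ≠ 0` to an eigenvector.** Operators `TA i` on `A` acting on `V` through the integer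
scalars `a i`, operators `TT i` on the target, `δ` equivariant on `V` and compatible with integer
multiples on `V`: a nonzero value `g = δ v` is a simultaneous eigenvector, `TT i g = a i • g`. -/
theorem exists_eigen_of_ne_zero (V : AddSubgroup A) {T : Type*} [AddCommGroup T] (δ : A → T)
    {ι : Type*} (TA : ι → A → A) (TT : ι → T → T) (a : ι → ℤ)
    (hTV : ∀ i, ∀ v ∈ V, TA i v = a i • v)
    (hδT : ∀ i, ∀ v ∈ V, δ (TA i v) = TT i (δ v))
    (hδz : ∀ (n : ℤ), ∀ v ∈ V, δ (n • v) = n • δ v)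
    (h : ∃ v ∈ V, δ v ≠ 0) :
    ∃ g : T, g ≠ 0 ∧ g ∈ δ '' (V : Set A) ∧ ∀ i, TT i g = a i • g := by
  obtain ⟨v, hv, hne⟩ := h
  refine ⟨δ v, hne, ⟨v, hv, rfl⟩, fun i => ?_⟩
  rw [← hδT i v hv, hTV i v hv, hδz (a i) v hv]

/-- **ENDGAME with eigen-conclusion, triangular form.** -/
theorem endgame_triangular_eigen (D : LocalData I A p) (V : AddSubgroup A)
    (hVJ0 : V ≤ D.J0) (hVK : V ≤ D.K) (hVp : ∀ x ∈ V, p • x = 0)
    {T : Type*} [AddCommGroup T] (δ : A → T)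
    (hK : ∀ x ∈ D.J0, p • x = 0 → δ x = 0 → x ∈ D.J1)
    {x₀ y : A} (hy : y ∈ V) (c : I → ℕ) (hact : ∀ s : I, s • y = y + c s • x₀)
    (hind : ∀ a b : ℤ, a • y = b • x₀ → (p : ℤ) ∣ a)
    (s₀ : I) (hchi : ¬ D.chi s₀ ≡ 1 [MOD p])
    {ι : Type*} (TA : ι → A → A) (TT : ι → T → T) (a : ι → ℤ)
    (hTV : ∀ i, ∀ v ∈ V, TA i v = a i • v)
    (hδT : ∀ i, ∀ v ∈ V, δ (TA i v) = TT i (δ v))
    (hδz : ∀ (n : ℤ), ∀ v ∈ V, δ (n • v) = n • δ v) :
    ∃ g : T, g ≠ 0 ∧ g ∈ δ '' (V : Set A) ∧ ∀ i, TT i g = a i • g :=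
  exists_eigen_of_ne_zero V δ TA TT a hTV hδT hδz
    (endgame_triangular D V hVJ0 hVK hVp δ hK hy c hact hind s₀ hchi)

/-- **ENDGAME with eigen-conclusion, determinant form.** -/
theorem endgame_det_eigen (hp : p.Prime) (D : LocalData I A p) (V : AddSubgroup A)
    (hVJ0 : V ≤ D.J0) (hVK : V ≤ D.K) (hVp : ∀ x ∈ V, p • x = 0)
    {T : Type*} [AddCommGroup T] (δ : A → T)
    (hK : ∀ x ∈ D.J0, p • x = 0 → δ x = 0 → x ∈ D.J1)
    {x y : A} (hx : x ∈ V) (hy : y ∈ V)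
    (hind : ∀ a b : ℤ, a • x + b • y = 0 → (p : ℤ) ∣ a ∧ (p : ℤ) ∣ b)
    (a b c d : I → ℤ)
    (hsx : ∀ s : I, s • x = a s • x + b s • y) (hsy : ∀ s : I, s • y = c s • x + d s • y)
    (hdet : ∀ s : I, a s * d s - b s * c s ≡ (D.chi s : ℤ) [ZMOD (p : ℤ)])
    (s₀ : I) (hchi : ¬ D.chi s₀ ≡ 1 [MOD p])
    {ι : Type*} (TA : ι → A → A) (TT : ι → T → T) (e : ι → ℤ)
    (hTV : ∀ i, ∀ v ∈ V, TA i v = e i • v)
    (hδT : ∀ i, ∀ v ∈ V, δ (TA i v) = TT i (δ v))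
    (hδz : ∀ (n : ℤ), ∀ v ∈ V, δ (n • v) = n • δ v) :
    ∃ g : T, g ≠ 0 ∧ g ∈ δ '' (V : Set A) ∧ ∀ i, TT i g = e i • g :=
  exists_eigen_of_ne_zero V δ TA TT e hTV hδT hδz
    (endgame_det hp D V hVJ0 hVK hVp δ hK hx hy hind a b c d hsx hsy hdet s₀ hchi)

end Fermat.Agent.T1B.Endgame74.Abstract
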